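/-
P-CFT / FR-COMM (row 521, helper98), part L1: explicit formulas for the inhomogeneous
differential in degrees `0, 1, 2` and for the cup product `cupFn` in low degrees.
-/
import Fermat.Agent.H13.Cft.Interfaces

set_option autoImplicit false

universe u

open CategoryTheory groupCohomology

namespace Fermat.Agent.H98.Cft

open Fermat.Agent.H13.Cft

variable {k G : Type u} [CommRing k] [Group G]

/-! ### The differential -/

lemma dHom0 (M : Rep.{u} k G) (f : (Fin 0 → G) → M) (g : Fin 1 → G) :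
    (inhomogeneousCochains.d M 0).hom f g = M.ρ (g 0) (f default) - f default := by
  rw [inhomogeneousCochains.d_hom_apply]
  simp only [Fin.sum_univ_succ, Finset.univ_eq_empty, Finset.sum_empty, add_zero]
  have h1 : (fun i : Fin 0 => g i.succ) = default := Subsingleton.elim _ _
  have h2 : Fin.contractNth (0 : Fin 1) (· * ·) g = default := Subsingleton.elim _ _
  rw [h1, h2]
  simp [sub_eq_add_neg]

lemma dHom1 (M : Rep.{u} k G) (f : (Fin 1 → G) → M) (g : Fin 2 → G) :
    (inhomogeneousCochains.d M 1).hom f g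
      = M.ρ (g 0) (f ![g 1]) - f ![g 0 * g 1] + f ![g 0] := by
  rw [inhomogeneousCochains.d_hom_apply]
  simp only [Fin.sum_univ_succ, Finset.univ_eq_empty, Finset.sum_empty, add_zero]
  have h1 : (fun i : Fin 1 => g i.succ) = ![g 1] := by
    funext i; fin_cases i; rfl
  have h2 : Fin.contractNth (0 : Fin 2) (· * ·) g = ![g 0 * g 1] := by
    funext i; fin_cases i; rfl
  have h3 : Fin.contractNth (Fin.succ (0 : Fin 1)) (· * ·) g = ![g 0] := by
    funext i; fin_cases i; rfl
  rw [h1, h2, h3]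
  simp [sub_eq_add_neg, add_assoc]

lemma dHom2 (M : Rep.{u} k G) (f : (Fin 2 → G) → M) (g : Fin 3 → G) :
    (inhomogeneousCochains.d M 2).hom f g
      = M.ρ (g 0) (f ![g 1, g 2]) - f ![g 0 * g 1, g 2] + f ![g 0, g 1 * g 2]
        - f ![g 0, g 1] := by
  rw [inhomogeneousCochains.d_hom_apply]
  simp only [Fin.sum_univ_succ, Finset.univ_eq_empty, Finset.sum_empty, add_zero]
  have h1 : (fun i : Fin 2 => g i.succ) = ![g 1, g 2] := by
    funext i; fin_cases i <;> rfl
  have h2 : Fin.contractNth (0 : Fin 3) (· * ·) g = ![g 0 * g 1, g 2] := by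
    funext i; fin_cases i <;> rfl
  have h3 : Fin.contractNth (Fin.succ (0 : Fin 2)) (· * ·) g = ![g 0, g 1 * g 2] := by
    funext i; fin_cases i <;> rfl
  have h4 : Fin.contractNth (Fin.succ (Fin.succ (0 : Fin 1))) (· * ·) g = ![g 0, g 1] := by
    funext i; fin_cases i <;> rfl
  rw [h1, h2, h3, h4]
  simp [sub_eq_add_neg, add_assoc, pow_succ]

/-! ### The cup product -/

variable {A B C : Rep.{u} k G} (β : RepPairing A B C)

lemma cup00 (a : (Fin 0 → G) → A) (y : (Fin 0 → G) → B) (g : Fin 0 → G) :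
    cupFn β 0 0 a y g = β.toLin (a default) (y default) := by
  unfold cupFn headProd
  have h1 : (fun t : Fin 0 => g (Fin.castAdd 0 t)) = default := Subsingleton.elim _ _
  have h2 : (fun t : Fin 0 => g (Fin.natAdd 0 t)) = default := Subsingleton.elim _ _
  rw [h1, h2]
  simp

lemma cup01 (a : (Fin 0 → G) → A) (y : (Fin 1 → G) → B) (g : Fin 1 → G) :
    cupFn β 0 1 a y g = β.toLin (a default) (y ![g 0]) := by
  unfold cupFn headProd
  have h1 : (fun t : Fin 0 => g (Fin.castAdd 1 t)) = default := Subsingleton.elim _ _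
  have h2 : (fun t : Fin 1 => g (Fin.natAdd 0 t)) = ![g 0] := by
    funext t; fin_cases t; rfl
  rw [h1, h2]
  simp

lemma cup02 (a : (Fin 0 → G) → A) (y : (Fin 2 → G) → B) (g : Fin 2 → G) :
    cupFn β 0 2 a y g = β.toLin (a default) (y ![g 0, g 1]) := by
  unfold cupFn headProd
  have h1 : (fun t : Fin 0 => g (Fin.castAdd 2 t)) = default := Subsingleton.elim _ _
  have h2 : (fun t : Fin 2 => g (Fin.natAdd 0 t)) = ![g 0, g 1] := by
    funext t; fin_cases t <;> rfl
  rw [h1, h2]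
  simp

lemma cup03 (a : (Fin 0 → G) → A) (y : (Fin 3 → G) → B) (g : Fin 3 → G) :
    cupFn β 0 3 a y g = β.toLin (a default) (y ![g 0, g 1, g 2]) := by
  unfold cupFn headProd
  have h1 : (fun t : Fin 0 => g (Fin.castAdd 3 t)) = default := Subsingleton.elim _ _
  have h2 : (fun t : Fin 3 => g (Fin.natAdd 0 t)) = ![g 0, g 1, g 2] := by
    funext t; fin_cases t <;> rfl
  rw [h1, h2]
  simp

lemma cup10 (a : (Fin 1 → G) → A) (y : (Fin 0 → G) → B) (g : Fin 1 → G) :
    cupFn β 1 0 a y g = β.toLin (a ![g 0]) (B.ρ (g 0) (y default)) := by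
  unfold cupFn headProd
  have h1 : (fun t : Fin 1 => g (Fin.castAdd 0 t)) = ![g 0] := by
    funext t; fin_cases t; rfl
  have h2 : (fun t : Fin 0 => g (Fin.natAdd 1 t)) = default := Subsingleton.elim _ _
  rw [h1, h2]
  simp

lemma cup11 (a : (Fin 1 → G) → A) (y : (Fin 1 → G) → B) (g : Fin 2 → G) :
    cupFn β 1 1 a y g = β.toLin (a ![g 0]) (B.ρ (g 0) (y ![g 1])) := by
  unfold cupFn headProd
  have h1 : (fun t : Fin 1 => g (Fin.castAdd 1 t)) = ![g 0] := by
    funext t; fin_cases t; rfl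
  have h2 : (fun t : Fin 1 => g (Fin.natAdd 1 t)) = ![g 1] := by
    funext t; fin_cases t; rfl
  rw [h1, h2]
  simp

lemma cup12 (a : (Fin 1 → G) → A) (y : (Fin 2 → G) → B) (g : Fin 3 → G) :
    cupFn β 1 2 a y g = β.toLin (a ![g 0]) (B.ρ (g 0) (y ![g 1, g 2])) := by
  unfold cupFn headProd
  have h1 : (fun t : Fin 1 => g (Fin.castAdd 2 t)) = ![g 0] := by
    funext t; fin_cases t; rfl
  have h2 : (fun t : Fin 2 => g (Fin.natAdd 1 t)) = ![g 1, g 2] := by
    funext t; fin_cases t <;> rfl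
  rw [h1, h2]
  simp

lemma cup20 (a : (Fin 2 → G) → A) (y : (Fin 0 → G) → B) (g : Fin 2 → G) :
    cupFn β 2 0 a y g = β.toLin (a ![g 0, g 1]) (B.ρ (g 0 * g 1) (y default)) := by
  unfold cupFn headProd
  have h1 : (fun t : Fin 2 => g (Fin.castAdd 0 t)) = ![g 0, g 1] := by
    funext t; fin_cases t <;> rfl
  have h2 : (fun t : Fin 0 => g (Fin.natAdd 2 t)) = default := Subsingleton.elim _ _
  rw [h1, h2]
  simp

lemma cup21 (a : (Fin 2 → G) → A) (y : (Fin 1 → G) → B) (g : Fin 3 → G) :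
    cupFn β 2 1 a y g = β.toLin (a ![g 0, g 1]) (B.ρ (g 0 * g 1) (y ![g 2])) := by
  unfold cupFn headProd
  have h1 : (fun t : Fin 2 => g (Fin.castAdd 1 t)) = ![g 0, g 1] := by
    funext t; fin_cases t <;> rfl
  have h2 : (fun t : Fin 1 => g (Fin.natAdd 2 t)) = ![g 2] := by
    funext t; fin_cases t; rfl
  rw [h1, h2]
  simp

lemma cup30 (a : (Fin 3 → G) → A) (y : (Fin 0 → G) → B) (g : Fin 3 → G) :
    cupFn β 3 0 a y g
      = β.toLin (a ![g 0, g 1, g 2]) (B.ρ (g 0 * g 1 * g 2) (y default)) := by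
  unfold cupFn headProd
  have h1 : (fun t : Fin 3 => g (Fin.castAdd 0 t)) = ![g 0, g 1, g 2] := by
    funext t; fin_cases t <;> rfl
  have h2 : (fun t : Fin 0 => g (Fin.natAdd 3 t)) = default := Subsingleton.elim _ _
  rw [h1, h2]
  simp [mul_assoc]

end Fermat.Agent.H98.Cft
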