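/-
P-CFT / FR-COMM (row 521, helper98), part L2: the Leibniz rule for the cup product `cupFn` in
the five low-degree cases needed for `ThetaComm`.
-/
import Fermat.Agent.H98.Cft.LowDegree

set_option autoImplicit false
set_option linter.unusedSimpArgs false

universe u

open CategoryTheory groupCohomology

namespace Fermat.Agent.H98.Cft

open Fermat.Agent.H13.Cft

variable {k G : Type u} [CommRing k] [Group G]
variable {A B C : Rep.{u} k G} (β : RepPairing A B C)

lemma equivariant' (g : G) (a : A) (b : B) :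
    C.ρ g (β.toLin a b) = β.toLin (A.ρ g a) (B.ρ g b) := (β.equivariant g a b).symm

lemma rho_mul_apply (M : Rep.{u} k G) (g h : G) (m : M) : M.ρ (g * h) m = M.ρ g (M.ρ h m) := by
  rw [map_mul]; rfl

/-- Leibniz, `(i, j) = (0, 1)`: `d (a ∪ y) = d a ∪ y + a ∪ d y`. -/
lemma leibniz01 (a : (Fin 0 → G) → A) (y : (Fin 1 → G) → B) (g : Fin 2 → G) :
    (inhomogeneousCochains.d C 1).hom (cupFn β 0 1 a y) g
      = cupFn β 1 1 ((inhomogeneousCochains.d A 0).hom a) y g
        + cupFn β 0 2 a ((inhomogeneousCochains.d B 1).hom y) g := by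
  rw [dHom1, cup11, cup02, dHom0, dHom1, cup01, cup01, cup01]
  simp only [Matrix.cons_val_zero, Matrix.cons_val_one, Matrix.cons_val_fin_one,
    map_sub, map_add, LinearMap.sub_apply, LinearMap.add_apply, equivariant']
  abel

/-- Leibniz, `(i, j) = (1, 0)`: `d (a ∪ y) = d a ∪ y - a ∪ d y`. -/
lemma leibniz10 (a : (Fin 1 → G) → A) (y : (Fin 0 → G) → B) (g : Fin 2 → G) :
    (inhomogeneousCochains.d C 1).hom (cupFn β 1 0 a y) g
      = cupFn β 2 0 ((inhomogeneousCochains.d A 1).hom a) y g
        - cupFn β 1 1 a ((inhomogeneousCochains.d B 0).hom y) g := by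
  rw [dHom1, cup20, cup11, dHom1, dHom0, cup10, cup10, cup10]
  simp only [Matrix.cons_val_zero, Matrix.cons_val_one, Matrix.cons_val_fin_one,
    map_sub, map_add, LinearMap.sub_apply, LinearMap.add_apply, equivariant', rho_mul_apply]
  abel

/-- Leibniz, `(i, j) = (0, 2)`: `d (a ∪ y) = d a ∪ y + a ∪ d y`. -/
lemma leibniz02 (a : (Fin 0 → G) → A) (y : (Fin 2 → G) → B) (g : Fin 3 → G) :
    (inhomogeneousCochains.d C 2).hom (cupFn β 0 2 a y) g
      = cupFn β 1 2 ((inhomogeneousCochains.d A 0).hom a) y g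
        + cupFn β 0 3 a ((inhomogeneousCochains.d B 2).hom y) g := by
  rw [dHom2, cup12, cup03, dHom0, dHom2, cup02, cup02, cup02, cup02]
  simp only [Matrix.cons_val_zero, Matrix.cons_val_one, Matrix.cons_val_fin_one,
    Matrix.cons_val_two, Matrix.head_cons, Matrix.tail_cons,
    map_sub, map_add, LinearMap.sub_apply, LinearMap.add_apply, equivariant', rho_mul_apply]
  abel

/-- Leibniz, `(i, j) = (1, 1)`: `d (a ∪ y) = d a ∪ y - a ∪ d y`. -/
lemma leibniz11 (a : (Fin 1 → G) → A) (y : (Fin 1 → G) → B) (g : Fin 3 → G) :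
    (inhomogeneousCochains.d C 2).hom (cupFn β 1 1 a y) g
      = cupFn β 2 1 ((inhomogeneousCochains.d A 1).hom a) y g
        - cupFn β 1 2 a ((inhomogeneousCochains.d B 1).hom y) g := by
  rw [dHom2, cup21, cup12, dHom1, dHom1, cup11, cup11, cup11, cup11]
  simp only [Matrix.cons_val_zero, Matrix.cons_val_one, Matrix.cons_val_fin_one,
    Matrix.cons_val_two, Matrix.head_cons, Matrix.tail_cons,
    map_sub, map_add, LinearMap.sub_apply, LinearMap.add_apply, equivariant', rho_mul_apply]
  abel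

/-- Leibniz, `(i, j) = (2, 0)`: `d (a ∪ y) = d a ∪ y + a ∪ d y`. -/
lemma leibniz20 (a : (Fin 2 → G) → A) (y : (Fin 0 → G) → B) (g : Fin 3 → G) :
    (inhomogeneousCochains.d C 2).hom (cupFn β 2 0 a y) g
      = cupFn β 3 0 ((inhomogeneousCochains.d A 2).hom a) y g
        + cupFn β 2 1 a ((inhomogeneousCochains.d B 0).hom y) g := by
  rw [dHom2, cup30, cup21, dHom2, dHom0, cup20, cup20, cup20, cup20]
  simp only [Matrix.cons_val_zero, Matrix.cons_val_one, Matrix.cons_val_fin_one,
    Matrix.cons_val_two, Matrix.head_cons, Matrix.tail_cons,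
    map_sub, map_add, LinearMap.sub_apply, LinearMap.add_apply, equivariant', rho_mul_apply]
  abel

end Fermat.Agent.H98.Cft
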