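/-
P-CFT / FR-COMM (row 521, helper98), part L3: `ThetaCommStatement`.

`Θ : C_c(M) ⟶ dualCx (C(M^*(χ)))` is a morphism of complexes: Leibniz rule for the cup product
in total degree `≤ 2`, compatibility of restriction with cup products and differentials, and
`τ ∘ d = 0`.
-/
import Fermat.Agent.H98.Cft.Leibniz

set_option autoImplicit false
set_option linter.unusedSimpArgs false

universe u

open CategoryTheory groupCohomology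

namespace Fermat.Agent.H98.Cft

open Fermat.Agent.H13.Cft

variable {k G : Type u} [CommRing k] [Group G]

/-! ### Differentials of the complexes, explicitly -/

lemma lvlComplex_d_eq (𝒰 : LevelSys G) (M : Rep.{u} k G) (n : ℕ) :
    (lvlComplex 𝒰 M).d n (n + 1) = ModuleCat.ofHom (lvlD 𝒰 M n) :=
  CochainComplex.of_d (fun n => ModuleCat.of k (lvlCochains 𝒰 M n))
    (fun n => ModuleCat.ofHom (lvlD 𝒰 M n)) n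

section

variable (𝔄 : ArithDatum k G) (M : Rep.{u} k G)

lemma ccComplex_d_eq (n : ℕ) : (ccComplex 𝔄 M).d n (n + 1) = coneD (resTot 𝔄 M) n :=
  CochainComplex.of_d _ _ n

lemma dualCx_d_eq (K : CochainComplex (ModuleCat.{u} k) ℕ) (n : ℕ) :
    (dualCx K).d n (n + 1) = dualD K n :=
  CochainComplex.of_d _ _ n

lemma locComplex_d_eq (n : ℕ) : (locComplex 𝔄 M).d n (n + 1)
    = ModuleCat.ofHom (LinearMap.pi fun v =>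
      lvlD (𝔄.lvlv v) (Rep.res (𝔄.loc v) M) n ∘ₗ LinearMap.proj v) :=
  CochainComplex.of_d
    (fun n => ModuleCat.of k (∀ v, lvlCochains (𝔄.lvlv v) (Rep.res (𝔄.loc v) M) n))
    (fun n => ModuleCat.ofHom (LinearMap.pi fun v =>
      lvlD (𝔄.lvlv v) (Rep.res (𝔄.loc v) M) n ∘ₗ LinearMap.proj v)) n

lemma ccD_zero (a : lvlCochains 𝔄.lvl M 0) :
    (coneD (resTot 𝔄 M) 0).hom a
      = ((lvlD 𝔄.lvl M 0 a, fun v => locRes 𝔄 M v 0 a) : CcProd 𝔄 M 0) := by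
  rw [coneD_zero_apply, lvlComplex_d_eq]
  rfl

lemma ccD_succ (n : ℕ) (a : lvlCochains 𝔄.lvl M (n + 1))
    (b : ∀ v, lvlCochains (𝔄.lvlv v) (Rep.res (𝔄.loc v) M) n) :
    (coneD (resTot 𝔄 M) (n + 1)).hom
        (show (coneX (lvlComplex 𝔄.lvl M) (locComplex 𝔄 M) (n + 1) : Type u) from (a, b))
      = ((lvlD 𝔄.lvl M (n + 1) a,
          fun v => locRes 𝔄 M v (n + 1) a - lvlD (𝔄.lvlv v) (Rep.res (𝔄.loc v) M) n (b v)) :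
          CcProd 𝔄 M (n + 1)) := by
  have h := coneD_succ_apply (resTot 𝔄 M) n a b
  rw [lvlComplex_d_eq, locComplex_d_eq] at h
  exact h

/-! ### Restriction: values, differentials, cup products -/

lemma locRes_coe (v : 𝔄.ι) (n : ℕ) (x : lvlCochains 𝔄.lvl M n) (g : Fin n → 𝔄.Γ v) :
    (locRes 𝔄 M v n x).1 g = x.1 (𝔄.loc v ∘ g) := rfl

lemma locRes_lvlD (v : 𝔄.ι) (n : ℕ) (x : lvlCochains 𝔄.lvl M n) :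
    locRes 𝔄 M v (n + 1) (lvlD 𝔄.lvl M n x)
      = lvlD (𝔄.lvlv v) (Rep.res (𝔄.loc v) M) n (locRes 𝔄 M v n x) := by
  have h := LinearMap.congr_fun
    (congrArg ModuleCat.Hom.hom ((lvlRes (𝔄.loc v) (𝔄.compat v) M).comm n (n + 1))) x
  rw [lvlComplex_d_eq, lvlComplex_d_eq] at h
  exact h.symm

end

lemma headProd_comp {H : Type u} [Group H] (f : H →* G) {i j : ℕ} (g : Fin (i + j) → H) :
    headProd (i := i) (j := j) (f ∘ g) = f (headProd (i := i) (j := j) g) := by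
  unfold headProd
  rw [map_list_prod, List.map_ofFn]
  rfl

section

variable (𝔄 : ArithDatum k G) (M : Rep.{u} k G)

lemma locRes_cup {A B C : Rep.{u} k G} (β : RepPairing A B C) (v : 𝔄.ι) (i j : ℕ)
    (a : lvlCochains 𝔄.lvl A i) (y : lvlCochains 𝔄.lvl B j) :
    locRes 𝔄 C v (i + j) (cupLvl 𝔄.lvl β i j a y)
      = cupLvl (𝔄.lvlv v) (β.res (𝔄.loc v)) i j (locRes 𝔄 A v i a) (locRes 𝔄 B v j y) := by
  apply Subtype.ext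
  funext g
  rw [locRes_coe, cupLvl_apply, cupLvl_apply, headProd_comp]
  rfl

end

end Fermat.Agent.H98.Cft

namespace Fermat.Agent.H98.Cft

open Fermat.Agent.H13.Cft

variable {k G : Type u} [CommRing k] [Group G]

/-! ### Leibniz on level cochains -/

section lvl

variable (𝒰 : LevelSys G) {A B C : Rep.{u} k G} (β : RepPairing A B C)

lemma lvl_leibniz01 (a : lvlCochains 𝒰 A 0) (y : lvlCochains 𝒰 B 1) :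
    lvlD 𝒰 C 1 (cupLvl 𝒰 β 0 1 a y)
      = (cupLvl 𝒰 β 1 1 (lvlD 𝒰 A 0 a) y : lvlCochains 𝒰 C 2)
        + (cupLvl 𝒰 β 0 2 a (lvlD 𝒰 B 1 y) : lvlCochains 𝒰 C 2) := by
  apply Subtype.ext
  funext g
  exact leibniz01 β a.1 y.1 g

lemma lvl_leibniz10 (a : lvlCochains 𝒰 A 1) (y : lvlCochains 𝒰 B 0) :
    lvlD 𝒰 C 1 (cupLvl 𝒰 β 1 0 a y)
      = (cupLvl 𝒰 β 2 0 (lvlD 𝒰 A 1 a) y : lvlCochains 𝒰 C 2)
        - (cupLvl 𝒰 β 1 1 a (lvlD 𝒰 B 0 y) : lvlCochains 𝒰 C 2) := by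
  apply Subtype.ext
  funext g
  exact leibniz10 β a.1 y.1 g

lemma lvl_leibniz02 (a : lvlCochains 𝒰 A 0) (y : lvlCochains 𝒰 B 2) :
    lvlD 𝒰 C 2 (cupLvl 𝒰 β 0 2 a y)
      = (cupLvl 𝒰 β 1 2 (lvlD 𝒰 A 0 a) y : lvlCochains 𝒰 C 3)
        + (cupLvl 𝒰 β 0 3 a (lvlD 𝒰 B 2 y) : lvlCochains 𝒰 C 3) := by
  apply Subtype.ext
  funext g
  exact leibniz02 β a.1 y.1 g

lemma lvl_leibniz11 (a : lvlCochains 𝒰 A 1) (y : lvlCochains 𝒰 B 1) :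
    lvlD 𝒰 C 2 (cupLvl 𝒰 β 1 1 a y)
      = (cupLvl 𝒰 β 2 1 (lvlD 𝒰 A 1 a) y : lvlCochains 𝒰 C 3)
        - (cupLvl 𝒰 β 1 2 a (lvlD 𝒰 B 1 y) : lvlCochains 𝒰 C 3) := by
  apply Subtype.ext
  funext g
  exact leibniz11 β a.1 y.1 g

lemma lvl_leibniz20 (a : lvlCochains 𝒰 A 2) (y : lvlCochains 𝒰 B 0) :
    lvlD 𝒰 C 2 (cupLvl 𝒰 β 2 0 a y)
      = (cupLvl 𝒰 β 3 0 (lvlD 𝒰 A 2 a) y : lvlCochains 𝒰 C 3)
        + (cupLvl 𝒰 β 2 1 a (lvlD 𝒰 B 0 y) : lvlCochains 𝒰 C 3) := by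
  apply Subtype.ext
  funext g
  exact leibniz20 β a.1 y.1 g

end lvl

end Fermat.Agent.H98.Cft

namespace Fermat.Agent.H98.Cft

open Fermat.Agent.H13.Cft

variable {k G : Type u} [CommRing k] [Group G]

/-! ### The trace kills coboundaries, explicitly -/

section key

variable {𝔄 : ArithDatum k G} (M : Rep.{u} k G) (T : Trace 𝔄)

lemma trace_d (α : lvlCochains 𝔄.lvl (muRep 𝔄.χ) 2)
    (γ : ∀ v, lvlCochains (𝔄.lvlv v) (Rep.res (𝔄.loc v) (muRep 𝔄.χ)) 1) :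
    T.τ ((lvlD 𝔄.lvl (muRep 𝔄.χ) 2 α,
      fun v => locRes 𝔄 (muRep 𝔄.χ) v 2 α
        - lvlD (𝔄.lvlv v) (Rep.res (𝔄.loc v) (muRep 𝔄.χ)) 1 (γ v)) :
        CcProd 𝔄 (muRep 𝔄.χ) 2) = 0 := by
  have h := T.τ_d
    (show ((ccComplex 𝔄 (muRep 𝔄.χ)).X 2 : Type u) from ((α, γ) : CcProd 𝔄 (muRep 𝔄.χ) 1))
  have h23 : (ccComplex 𝔄 (muRep 𝔄.χ)).d 2 3 = coneD (resTot 𝔄 (muRep 𝔄.χ)) (1 + 1) :=
    ccComplex_d_eq 𝔄 (muRep 𝔄.χ) 2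
  rw [h23] at h
  have h2 := ccD_succ 𝔄 (muRep 𝔄.χ) 1 α γ
  rw [← h2]
  exact h

lemma theta0_apply (a : lvlCochains 𝔄.lvl M 0) (z : lvlCochains 𝔄.lvl (M.dualTwist 𝔄.χ) 3) :
    theta0 M T a z
      = T.τ ((cupLvl 𝔄.lvl (evPairing 𝔄.χ M) 0 3 a z, 0) : CcProd 𝔄 (muRep 𝔄.χ) 2) := rfl

lemma theta1_apply (x : CcProd 𝔄 M 0) (z : lvlCochains 𝔄.lvl (M.dualTwist 𝔄.χ) 2) :
    theta1 M T x z = - T.τ (ccCup 𝔄 M 0 2 x z) := rfl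

lemma theta2_apply (x : CcProd 𝔄 M 1) (z : lvlCochains 𝔄.lvl (M.dualTwist 𝔄.χ) 1) :
    theta2 M T x z = - T.τ (ccCup 𝔄 M 1 1 x z) := rfl

lemma theta3_apply (x : CcProd 𝔄 M 2) (z : lvlCochains 𝔄.lvl (M.dualTwist 𝔄.χ) 0) :
    theta3 M T x z = T.τ (ccCup 𝔄 M 2 0 x z) := rfl

lemma ccCup_apply (i j : ℕ) (x : CcProd 𝔄 M i) (y : lvlCochains 𝔄.lvl (M.dualTwist 𝔄.χ) j) :
    ccCup 𝔄 M i j x y
      = (cupLvl 𝔄.lvl (evPairing 𝔄.χ M) (i + 1) j x.1 y,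
        fun v => cupLvl (𝔄.lvlv v) ((evPairing 𝔄.χ M).res (𝔄.loc v)) i j (x.2 v)
          (locRes 𝔄 (M.dualTwist 𝔄.χ) v j y)) := rfl

/-- `Θ⁰ (a) (d y) = Θ¹ (d_c a) (y)`. -/
theorem key0 (a : lvlCochains 𝔄.lvl M 0) (y : lvlCochains 𝔄.lvl (M.dualTwist 𝔄.χ) 2) :
    theta0 M T a (lvlD 𝔄.lvl (M.dualTwist 𝔄.χ) 2 y)
      = theta1 M T ((lvlD 𝔄.lvl M 0 a, fun v => locRes 𝔄 M v 0 a) : CcProd 𝔄 M 0) y := by
  have h := trace_d T (cupLvl 𝔄.lvl (evPairing 𝔄.χ M) 0 2 a y) 0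
  have hE : ((lvlD 𝔄.lvl (muRep 𝔄.χ) 2 (cupLvl 𝔄.lvl (evPairing 𝔄.χ M) 0 2 a y),
      fun v => locRes 𝔄 (muRep 𝔄.χ) v 2 (cupLvl 𝔄.lvl (evPairing 𝔄.χ M) 0 2 a y)
        - lvlD (𝔄.lvlv v) (Rep.res (𝔄.loc v) (muRep 𝔄.χ)) 1
          ((0 : ∀ v, lvlCochains (𝔄.lvlv v) (Rep.res (𝔄.loc v) (muRep 𝔄.χ)) 1) v)) :
        CcProd 𝔄 (muRep 𝔄.χ) 2)
      = ((cupLvl 𝔄.lvl (evPairing 𝔄.χ M) 0 3 a (lvlD 𝔄.lvl (M.dualTwist 𝔄.χ) 2 y), 0) :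
          CcProd 𝔄 (muRep 𝔄.χ) 2)
        + ccCup 𝔄 M 0 2 ((lvlD 𝔄.lvl M 0 a, fun v => locRes 𝔄 M v 0 a) : CcProd 𝔄 M 0) y := by
    refine Prod.ext ?_ ?_
    · show lvlD 𝔄.lvl (muRep 𝔄.χ) 2 (cupLvl 𝔄.lvl (evPairing 𝔄.χ M) 0 2 a y)
        = (cupLvl 𝔄.lvl (evPairing 𝔄.χ M) 0 3 a (lvlD 𝔄.lvl (M.dualTwist 𝔄.χ) 2 y) :
            lvlCochains 𝔄.lvl (muRep 𝔄.χ) 3)
          + (cupLvl 𝔄.lvl (evPairing 𝔄.χ M) 1 2 (lvlD 𝔄.lvl M 0 a) y :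
            lvlCochains 𝔄.lvl (muRep 𝔄.χ) 3)
      exact (lvl_leibniz02 𝔄.lvl (evPairing 𝔄.χ M) a y).trans (add_comm _ _)
    · funext v
      show locRes 𝔄 (muRep 𝔄.χ) v 2 (cupLvl 𝔄.lvl (evPairing 𝔄.χ M) 0 2 a y)
          - lvlD (𝔄.lvlv v) (Rep.res (𝔄.loc v) (muRep 𝔄.χ)) 1 0
        = (0 : lvlCochains (𝔄.lvlv v) (Rep.res (𝔄.loc v) (muRep 𝔄.χ)) 2)
          + (cupLvl (𝔄.lvlv v) ((evPairing 𝔄.χ M).res (𝔄.loc v)) 0 2 (locRes 𝔄 M v 0 a)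
            (locRes 𝔄 (M.dualTwist 𝔄.χ) v 2 y) :
              lvlCochains (𝔄.lvlv v) (Rep.res (𝔄.loc v) (muRep 𝔄.χ)) 2)
      have h0 : lvlD (𝔄.lvlv v) (Rep.res (𝔄.loc v) (muRep 𝔄.χ)) 1 0 = 0 := map_zero _
      rw [h0]
      exact (sub_zero _).trans
        ((locRes_cup 𝔄 (evPairing 𝔄.χ M) v 0 2 a y).trans (zero_add _).symm)
  rw [hE, map_add] at h
  rw [theta0_apply, theta1_apply]
  exact eq_neg_of_add_eq_zero_left h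

/-- `Θ¹ (x) (d y) = Θ² (d_c x) (y)`. -/
theorem key1 (a : lvlCochains 𝔄.lvl M 1)
    (b : ∀ v, lvlCochains (𝔄.lvlv v) (Rep.res (𝔄.loc v) M) 0)
    (y : lvlCochains 𝔄.lvl (M.dualTwist 𝔄.χ) 1) :
    theta1 M T ((a, b) : CcProd 𝔄 M 0) (lvlD 𝔄.lvl (M.dualTwist 𝔄.χ) 1 y)
      = theta2 M T ((lvlD 𝔄.lvl M 1 a,
          fun v => locRes 𝔄 M v 1 a - lvlD (𝔄.lvlv v) (Rep.res (𝔄.loc v) M) 0 (b v)) :
          CcProd 𝔄 M 1) y := by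
  have h := trace_d T (cupLvl 𝔄.lvl (evPairing 𝔄.χ M) 1 1 a y)
    (fun v => cupLvl (𝔄.lvlv v) ((evPairing 𝔄.χ M).res (𝔄.loc v)) 0 1 (b v)
      (locRes 𝔄 (M.dualTwist 𝔄.χ) v 1 y))
  have hE : ((lvlD 𝔄.lvl (muRep 𝔄.χ) 2 (cupLvl 𝔄.lvl (evPairing 𝔄.χ M) 1 1 a y),
      fun v => locRes 𝔄 (muRep 𝔄.χ) v 2 (cupLvl 𝔄.lvl (evPairing 𝔄.χ M) 1 1 a y)
        - lvlD (𝔄.lvlv v) (Rep.res (𝔄.loc v) (muRep 𝔄.χ)) 1
          (cupLvl (𝔄.lvlv v) ((evPairing 𝔄.χ M).res (𝔄.loc v)) 0 1 (b v)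
            (locRes 𝔄 (M.dualTwist 𝔄.χ) v 1 y))) :
        CcProd 𝔄 (muRep 𝔄.χ) 2)
      = ccCup 𝔄 M 1 1 ((lvlD 𝔄.lvl M 1 a,
          fun v => locRes 𝔄 M v 1 a - lvlD (𝔄.lvlv v) (Rep.res (𝔄.loc v) M) 0 (b v)) :
          CcProd 𝔄 M 1) y
        - ccCup 𝔄 M 0 2 ((a, b) : CcProd 𝔄 M 0) (lvlD 𝔄.lvl (M.dualTwist 𝔄.χ) 1 y) := by
    refine Prod.ext ?_ ?_
    · show lvlD 𝔄.lvl (muRep 𝔄.χ) 2 (cupLvl 𝔄.lvl (evPairing 𝔄.χ M) 1 1 a y)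
        = (cupLvl 𝔄.lvl (evPairing 𝔄.χ M) 2 1 (lvlD 𝔄.lvl M 1 a) y :
            lvlCochains 𝔄.lvl (muRep 𝔄.χ) 3)
          - (cupLvl 𝔄.lvl (evPairing 𝔄.χ M) 1 2 a (lvlD 𝔄.lvl (M.dualTwist 𝔄.χ) 1 y) :
            lvlCochains 𝔄.lvl (muRep 𝔄.χ) 3)
      exact lvl_leibniz11 𝔄.lvl (evPairing 𝔄.χ M) a y
    · funext v
      show locRes 𝔄 (muRep 𝔄.χ) v 2 (cupLvl 𝔄.lvl (evPairing 𝔄.χ M) 1 1 a y)
          - lvlD (𝔄.lvlv v) (Rep.res (𝔄.loc v) (muRep 𝔄.χ)) 1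
            (cupLvl (𝔄.lvlv v) ((evPairing 𝔄.χ M).res (𝔄.loc v)) 0 1 (b v)
              (locRes 𝔄 (M.dualTwist 𝔄.χ) v 1 y))
        = (cupLvl (𝔄.lvlv v) ((evPairing 𝔄.χ M).res (𝔄.loc v)) 1 1
            (locRes 𝔄 M v 1 a - lvlD (𝔄.lvlv v) (Rep.res (𝔄.loc v) M) 0 (b v))
            (locRes 𝔄 (M.dualTwist 𝔄.χ) v 1 y) :
              lvlCochains (𝔄.lvlv v) (Rep.res (𝔄.loc v) (muRep 𝔄.χ)) 2)
          - (cupLvl (𝔄.lvlv v) ((evPairing 𝔄.χ M).res (𝔄.loc v)) 0 2 (b v)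
            (locRes 𝔄 (M.dualTwist 𝔄.χ) v 2 (lvlD 𝔄.lvl (M.dualTwist 𝔄.χ) 1 y)) :
              lvlCochains (𝔄.lvlv v) (Rep.res (𝔄.loc v) (muRep 𝔄.χ)) 2)
      have h1 : locRes 𝔄 (muRep 𝔄.χ) v 2 (cupLvl 𝔄.lvl (evPairing 𝔄.χ M) 1 1 a y)
          = (cupLvl (𝔄.lvlv v) ((evPairing 𝔄.χ M).res (𝔄.loc v)) 1 1 (locRes 𝔄 M v 1 a)
            (locRes 𝔄 (M.dualTwist 𝔄.χ) v 1 y) :
              lvlCochains (𝔄.lvlv v) (Rep.res (𝔄.loc v) (muRep 𝔄.χ)) 2) :=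
        locRes_cup 𝔄 (evPairing 𝔄.χ M) v 1 1 a y
      have h2 := lvl_leibniz01 (𝔄.lvlv v) ((evPairing 𝔄.χ M).res (𝔄.loc v)) (b v)
        (locRes 𝔄 (M.dualTwist 𝔄.χ) v 1 y)
      have h3 := locRes_lvlD 𝔄 (M.dualTwist 𝔄.χ) v 1 y
      rw [h1, h2, h3, map_sub, LinearMap.sub_apply]
      abel
  rw [hE, map_sub, sub_eq_zero] at h
  rw [theta1_apply, theta2_apply, h]

/-- `Θ² (x) (d y) = Θ³ (d_c x) (y)`. -/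
theorem key2 (a : lvlCochains 𝔄.lvl M 2)
    (b : ∀ v, lvlCochains (𝔄.lvlv v) (Rep.res (𝔄.loc v) M) 1)
    (y : lvlCochains 𝔄.lvl (M.dualTwist 𝔄.χ) 0) :
    theta2 M T ((a, b) : CcProd 𝔄 M 1) (lvlD 𝔄.lvl (M.dualTwist 𝔄.χ) 0 y)
      = theta3 M T ((lvlD 𝔄.lvl M 2 a,
          fun v => locRes 𝔄 M v 2 a - lvlD (𝔄.lvlv v) (Rep.res (𝔄.loc v) M) 1 (b v)) :
          CcProd 𝔄 M 2) y := by
  have h := trace_d T (cupLvl 𝔄.lvl (evPairing 𝔄.χ M) 2 0 a y)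
    (fun v => cupLvl (𝔄.lvlv v) ((evPairing 𝔄.χ M).res (𝔄.loc v)) 1 0 (b v)
      (locRes 𝔄 (M.dualTwist 𝔄.χ) v 0 y))
  have hE : ((lvlD 𝔄.lvl (muRep 𝔄.χ) 2 (cupLvl 𝔄.lvl (evPairing 𝔄.χ M) 2 0 a y),
      fun v => locRes 𝔄 (muRep 𝔄.χ) v 2 (cupLvl 𝔄.lvl (evPairing 𝔄.χ M) 2 0 a y)
        - lvlD (𝔄.lvlv v) (Rep.res (𝔄.loc v) (muRep 𝔄.χ)) 1
          (cupLvl (𝔄.lvlv v) ((evPairing 𝔄.χ M).res (𝔄.loc v)) 1 0 (b v)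
            (locRes 𝔄 (M.dualTwist 𝔄.χ) v 0 y))) :
        CcProd 𝔄 (muRep 𝔄.χ) 2)
      = ccCup 𝔄 M 2 0 ((lvlD 𝔄.lvl M 2 a,
          fun v => locRes 𝔄 M v 2 a - lvlD (𝔄.lvlv v) (Rep.res (𝔄.loc v) M) 1 (b v)) :
          CcProd 𝔄 M 2) y
        + ccCup 𝔄 M 1 1 ((a, b) : CcProd 𝔄 M 1) (lvlD 𝔄.lvl (M.dualTwist 𝔄.χ) 0 y) := by
    refine Prod.ext ?_ ?_
    · show lvlD 𝔄.lvl (muRep 𝔄.χ) 2 (cupLvl 𝔄.lvl (evPairing 𝔄.χ M) 2 0 a y)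
        = (cupLvl 𝔄.lvl (evPairing 𝔄.χ M) 3 0 (lvlD 𝔄.lvl M 2 a) y :
            lvlCochains 𝔄.lvl (muRep 𝔄.χ) 3)
          + (cupLvl 𝔄.lvl (evPairing 𝔄.χ M) 2 1 a (lvlD 𝔄.lvl (M.dualTwist 𝔄.χ) 0 y) :
            lvlCochains 𝔄.lvl (muRep 𝔄.χ) 3)
      exact lvl_leibniz20 𝔄.lvl (evPairing 𝔄.χ M) a y
    · funext v
      show locRes 𝔄 (muRep 𝔄.χ) v 2 (cupLvl 𝔄.lvl (evPairing 𝔄.χ M) 2 0 a y)
          - lvlD (𝔄.lvlv v) (Rep.res (𝔄.loc v) (muRep 𝔄.χ)) 1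
            (cupLvl (𝔄.lvlv v) ((evPairing 𝔄.χ M).res (𝔄.loc v)) 1 0 (b v)
              (locRes 𝔄 (M.dualTwist 𝔄.χ) v 0 y))
        = (cupLvl (𝔄.lvlv v) ((evPairing 𝔄.χ M).res (𝔄.loc v)) 2 0
            (locRes 𝔄 M v 2 a - lvlD (𝔄.lvlv v) (Rep.res (𝔄.loc v) M) 1 (b v))
            (locRes 𝔄 (M.dualTwist 𝔄.χ) v 0 y) :
              lvlCochains (𝔄.lvlv v) (Rep.res (𝔄.loc v) (muRep 𝔄.χ)) 2)
          + (cupLvl (𝔄.lvlv v) ((evPairing 𝔄.χ M).res (𝔄.loc v)) 1 1 (b v)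
            (locRes 𝔄 (M.dualTwist 𝔄.χ) v 1 (lvlD 𝔄.lvl (M.dualTwist 𝔄.χ) 0 y)) :
              lvlCochains (𝔄.lvlv v) (Rep.res (𝔄.loc v) (muRep 𝔄.χ)) 2)
      have h1 : locRes 𝔄 (muRep 𝔄.χ) v 2 (cupLvl 𝔄.lvl (evPairing 𝔄.χ M) 2 0 a y)
          = (cupLvl (𝔄.lvlv v) ((evPairing 𝔄.χ M).res (𝔄.loc v)) 2 0 (locRes 𝔄 M v 2 a)
            (locRes 𝔄 (M.dualTwist 𝔄.χ) v 0 y) :
              lvlCochains (𝔄.lvlv v) (Rep.res (𝔄.loc v) (muRep 𝔄.χ)) 2) :=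
        locRes_cup 𝔄 (evPairing 𝔄.χ M) v 2 0 a y
      have h2 := lvl_leibniz10 (𝔄.lvlv v) ((evPairing 𝔄.χ M).res (𝔄.loc v)) (b v)
        (locRes 𝔄 (M.dualTwist 𝔄.χ) v 0 y)
      have h3 := locRes_lvlD 𝔄 (M.dualTwist 𝔄.χ) v 0 y
      rw [h1, h2, h3, map_sub, LinearMap.sub_apply]
      abel
  rw [hE, map_add] at h
  rw [theta2_apply, theta3_apply]
  exact (eq_neg_of_add_eq_zero_left h).symm

end key

/-! ### The statement -/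

lemma lvlComplex_d_apply' (𝒰 : LevelSys G) (M : Rep.{u} k G) (n : ℕ)
    (x : lvlCochains 𝒰 M n) :
    ((lvlComplex 𝒰 M).d n (n + 1)).hom x = lvlD 𝒰 M n x := by
  rw [lvlComplex_d_eq]
  rfl

/-- **FR-COMM** (row 521): `Θ` is a morphism of complexes. -/
theorem thetaComm_all {k G : Type u} [CommRing k] [Group G] (𝔄 : ArithDatum k G)
    (T : Trace 𝔄) (M : Rep.{u} k G) : ThetaComm M T := by
  intro n
  match n with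
  | 0 =>
    rw [dualCx_d_eq, ccComplex_d_eq]
    apply ModuleCat.hom_ext
    refine LinearMap.ext fun (a : lvlCochains 𝔄.lvl M 0) => ?_
    refine LinearMap.ext fun (y : lvlCochains 𝔄.lvl (M.dualTwist 𝔄.χ) 2) => ?_
    have e1 := lvlComplex_d_apply' 𝔄.lvl (M.dualTwist 𝔄.χ) 2 y
    have e2 := ccD_zero 𝔄 M a
    exact (congrArg (theta0 M T a) e1).trans
      ((key0 M T a y).trans (congrArg (fun x => theta1 M T x y) e2.symm))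
  | 1 =>
    rw [dualCx_d_eq, ccComplex_d_eq]
    apply ModuleCat.hom_ext
    refine LinearMap.ext fun (x : CcProd 𝔄 M 0) => ?_
    refine LinearMap.ext fun (y : lvlCochains 𝔄.lvl (M.dualTwist 𝔄.χ) 1) => ?_
    obtain ⟨a, b⟩ := x
    have e1 := lvlComplex_d_apply' 𝔄.lvl (M.dualTwist 𝔄.χ) 1 y
    have e2 := ccD_succ 𝔄 M 0 a b
    exact (congrArg (theta1 M T ((a, b) : CcProd 𝔄 M 0)) e1).trans
      ((key1 M T a b y).trans (congrArg (fun x => theta2 M T x y) e2.symm))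
  | 2 =>
    rw [dualCx_d_eq, ccComplex_d_eq]
    apply ModuleCat.hom_ext
    refine LinearMap.ext fun (x : CcProd 𝔄 M 1) => ?_
    refine LinearMap.ext fun (y : lvlCochains 𝔄.lvl (M.dualTwist 𝔄.χ) 0) => ?_
    obtain ⟨a, b⟩ := x
    have e1 := lvlComplex_d_apply' 𝔄.lvl (M.dualTwist 𝔄.χ) 0 y
    have e2 := ccD_succ 𝔄 M 1 a b
    exact (congrArg (theta2 M T ((a, b) : CcProd 𝔄 M 1)) e1).trans
      ((key2 M T a b y).trans (congrArg (fun x => theta3 M T x y) e2.symm))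
  | 3 =>
    rw [dualCx_d_eq]
    show thetaF M T 3 ≫ (0 : _ ⟶ _) = _ ≫ (0 : _ ⟶ _)
    rw [Limits.comp_zero, Limits.comp_zero]
  | n + 4 =>
    show (0 : _ ⟶ _) ≫ _ = _ ≫ (0 : _ ⟶ _)
    rw [Limits.zero_comp, Limits.comp_zero]

/-- **FR-COMM** (row 521), in the form of the interface. -/
theorem thetaCommStatement : ThetaCommStatement.{u} :=
  fun 𝔄 T M => thetaComm_all 𝔄 T M

end Fermat.Agent.H98.Cft
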