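/-
P-CFT row 629 (helper98), part 1: the cyclic Kummer extension `K(α)/K`, `α ^ p ∈ K`, `α ∉ K`,
`ζ_p ∈ K`, as a field theory statement over an arbitrary ambient field `Ω`:
`K⟮α⟯ / K` is finite Galois, with a generator `g₀` of the Galois group of order `p` such that
every automorphism `σ` with `σ α = ζ ^ k * α` (`k < p`) has discrete logarithm `k`.
-/
import Mathlib
import Fermat.Agent.H61.CFT.CyclicCocycle

set_option autoImplicit false
set_option linter.style.haveILetI false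
set_option linter.unusedSimpArgs false

namespace Fermat.Agent.H98.Cft.KC

open Polynomial IntermediateField Fermat.Agent.H61.CFT

variable {K Ω : Type*} [Field K] [Field Ω] [Algebra K Ω] {p : ℕ}

/-- `X ^ p - a` is irreducible when `α ^ p = a`, `α ∉ K`, `ζ_p ∈ K`. -/
theorem irreducible_of_not_mem (hp : p.Prime) {ζ : K} (hζ : IsPrimitiveRoot ζ p) {a : K} {α : Ω}
    (hα : α ^ p = algebraMap K Ω a) (hnot : ∀ b : K, algebraMap K Ω b ≠ α) :
    Irreducible (X ^ p - C a : K[X]) := by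
  haveI : NeZero p := ⟨hp.ne_zero⟩
  apply X_pow_sub_C_irreducible_of_prime hp
  intro b hb
  have hα0 : α ≠ 0 := by
    rintro rfl
    exact hnot 0 (map_zero _)
  have hζ' : IsPrimitiveRoot (algebraMap K Ω ζ) p :=
    hζ.map_of_injective (algebraMap K Ω).injective
  have h1 : (algebraMap K Ω b / α) ^ p = 1 := by
    rw [div_pow, ← map_pow, hb, hα, div_self]
    rw [← hα]
    exact pow_ne_zero _ hα0
  obtain ⟨i, -, hi⟩ := hζ'.eq_pow_of_pow_eq_one h1
  have hζ0 : ζ ≠ 0 := hζ.ne_zero hp.ne_zero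
  apply hnot (b / ζ ^ i)
  rw [map_div₀, map_pow, hi, div_div_cancel₀]
  intro h0
  rw [map_eq_zero] at h0
  rw [h0, zero_pow hp.ne_zero] at hb
  rw [← hb, map_zero] at hα
  exact hα0 (pow_eq_zero_iff hp.ne_zero |>.1 hα)

theorem isIntegral_of_pow {a : K} {α : Ω} (hp : p ≠ 0)
    (hα : α ^ p = algebraMap K Ω a) : IsIntegral K α :=
  ⟨X ^ p - C a, monic_X_pow_sub_C a hp, by simp [hα]⟩

theorem gen_pow {a : K} {α : Ω} (hα : α ^ p = algebraMap K Ω a) :
    (AdjoinSimple.gen K α) ^ p = algebraMap K K⟮α⟯ a :=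
  Subtype.ext (by simpa using hα)

theorem adjoin_gen_eq_top (α : Ω) : K⟮AdjoinSimple.gen K α⟯ = ⊤ := by
  apply IntermediateField.lift_injective
  rw [lift_adjoin_simple, lift_top, AdjoinSimple.coe_gen]

theorem isSplittingField_adjoin (hp : p.Prime) {ζ : K} (hζ : IsPrimitiveRoot ζ p) {a : K}
    {α : Ω} (hα : α ^ p = algebraMap K Ω a) :
    IsSplittingField K K⟮α⟯ (X ^ p - C a) := by
  have hint : IsIntegral K α := isIntegral_of_pow hp.ne_zero hα
  have hgint : IsIntegral K (AdjoinSimple.gen K α) := (AdjoinSimple.isIntegral_gen K α).2 hint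
  constructor
  · rw [Polynomial.map_sub, Polynomial.map_pow, Polynomial.map_C, Polynomial.map_X]
    exact X_pow_sub_C_splits_of_isPrimitiveRoot
      (hζ.map_of_injective (algebraMap K _).injective) (gen_pow hα)
  · rw [eq_top_iff, ← IntermediateField.top_toSubalgebra, ← adjoin_gen_eq_top α,
      IntermediateField.adjoin_simple_toSubalgebra_of_isAlgebraic hgint.isAlgebraic]
    apply Algebra.adjoin_mono
    rw [Set.singleton_subset_iff, mem_rootSet_of_ne (X_pow_sub_C_ne_zero hp.pos a),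
      aeval_def, eval₂_sub, eval₂_X_pow, eval₂_C, gen_pow hα, sub_self]

/-- The cyclic Kummer extension `K(α)/K`. -/
theorem exists_gen (hp : p.Prime) {ζ : K} (hζ : IsPrimitiveRoot ζ p) {a : K} {α : Ω}
    (hα : α ^ p = algebraMap K Ω a) (hnot : ∀ b : K, algebraMap K Ω b ≠ α) :
    FiniteDimensional K K⟮α⟯ ∧ IsGalois K K⟮α⟯ ∧
      ∃ g₀ : K⟮α⟯ ≃ₐ[K] K⟮α⟯, IsGen g₀ ∧ orderOf g₀ = p ∧
        ∀ (σ : K⟮α⟯ ≃ₐ[K] K⟮α⟯) (k : ℕ), k < p →
          (σ (AdjoinSimple.gen K α) : Ω) = algebraMap K Ω ζ ^ k * α → dlog g₀ σ = k := by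
  haveI : NeZero p := ⟨hp.ne_zero⟩
  have hirr := irreducible_of_not_mem hp hζ hα hnot
  have hint : IsIntegral K α := isIntegral_of_pow hp.ne_zero hα
  haveI hsf := isSplittingField_adjoin hp hζ hα
  haveI hfd : FiniteDimensional K K⟮α⟯ := adjoin.finiteDimensional hint
  have hgal : IsGalois K K⟮α⟯ :=
    isGalois_of_isSplittingField_X_pow_sub_C ⟨ζ, (mem_primitiveRoots hp.pos).2 hζ⟩ hirr K⟮α⟯
  refine ⟨hfd, hgal, ?_⟩
  let e := autEquivZmod hirr K⟮α⟯ hζ
  let g₀ : K⟮α⟯ ≃ₐ[K] K⟮α⟯ := e.symm (Multiplicative.ofAdd 1)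
  have hpow : ∀ k : ℕ, g₀ ^ k = e.symm (Multiplicative.ofAdd (k : ZMod p)) := by
    intro k
    rw [← map_pow, ← ofAdd_nsmul, nsmul_one]
  have hgk : ∀ k : ℕ, (g₀ ^ k) (AdjoinSimple.gen K α) = ζ ^ k • AdjoinSimple.gen K α := by
    intro k
    rw [hpow]
    exact autEquivZmod_symm_apply_natCast hirr K⟮α⟯ (gen_pow hα) hζ k
  have hsurj : ∀ σ : K⟮α⟯ ≃ₐ[K] K⟮α⟯, ∃ i : ℕ, g₀ ^ i = σ := by
    intro σ
    refine ⟨(Multiplicative.toAdd (e σ)).val, ?_⟩
    rw [hpow, ZMod.natCast_zmod_val, ofAdd_toAdd, MulEquiv.symm_apply_apply]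
  have hord : orderOf g₀ = p := by
    have h1 : orderOf g₀ = orderOf (Multiplicative.ofAdd (1 : ZMod p)) :=
      MulEquiv.orderOf_eq e.symm _
    rw [h1, orderOf_ofAdd_eq_addOrderOf, ZMod.addOrderOf_one]
  have hgen : IsGen g₀ := ⟨by rw [hord]; exact hp.pos, hsurj⟩
  refine ⟨g₀, hgen, hord, ?_⟩
  intro σ k hk hσ
  have hσk : σ = g₀ ^ k := by
    have : (σ : K⟮α⟯ →ₐ[K] K⟮α⟯) = ((g₀ ^ k : K⟮α⟯ ≃ₐ[K] K⟮α⟯) : K⟮α⟯ →ₐ[K] K⟮α⟯) := by
      apply adjoin_algHom_ext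
      intro x hx
      rw [Set.mem_singleton_iff] at hx
      subst hx
      apply Subtype.ext
      have h2 := hgk k
      have h3 : ((g₀ ^ k) (AdjoinSimple.gen K x) : Ω) = algebraMap K Ω ζ ^ k * x := by
        rw [h2]
        simp [Algebra.smul_def]
      exact hσ.trans h3.symm
    exact AlgEquiv.coe_toAlgHom_injective this
  rw [hσk, dlog_pow' hgen.1, hord, Nat.mod_eq_of_lt hk]

end Fermat.Agent.H98.Cft.KC
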