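/-
P-CFT row 629 (helper98), part 2: **[LOC-8]** the cup product of two Kummer characters versus
norms (`CupNormStatement`), from `MuDescentStatement` and `Inf2LvlStatement`; and the
skew-symmetry of the cup product of level homomorphisms.
-/
import Fermat.Agent.H78.CFT.LocalRows
import Fermat.Agent.H61.CFT.UnramBrauer
import Fermat.Agent.H47.Cft.KummerE
import Fermat.Agent.H98.Cft.KummerCyclic

set_option autoImplicit false
set_option linter.style.haveILetI false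
set_option linter.unusedSimpArgs false

namespace Fermat.Agent.H98.Cft.CupNorm

open Fermat.Agent.H13.Cft Fermat.Agent.H78.CFT Fermat.Agent.H61.CFT groupCohomology
  IntermediateField

section skew

variable {G : Type} [Group G] (𝒰 : LevelSys G) {p : ℕ}

/-- Pointwise skew-symmetry: `(χ ∪ ψ) + (ψ ∪ χ) = - d (χ · ψ)`. -/
theorem cup_add_cup_swap {R : Type*} [CommRing R] {χ ψ : G → R}
    (hχ : ∀ g h, χ (g * h) = χ g + χ h) (hψ : ∀ g h, ψ (g * h) = ψ g + ψ h) (g h : G) :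
    χ g * ψ h + ψ g * χ h = -(χ h * ψ h - χ (g * h) * ψ (g * h) + χ g * ψ g) := by
  rw [hχ, hψ]; ring

/-- The pointwise product of two level homomorphisms is a level `1`-cochain. -/
theorem isLvl₁_mul {χ ψ : G → ZMod p} (hχ : IsLvlHom 𝒰 χ) (hψ : IsLvlHom 𝒰 ψ) :
    IsLvl₁ 𝒰 (fun g => χ g * ψ g) := by
  obtain ⟨-, N₁, hN₁, hχN⟩ := hχ
  obtain ⟨-, N₂, hN₂, hψN⟩ := hψ
  obtain ⟨N₃, hN₃, hle₃⟩ := 𝒰.directed N₁ hN₁ N₂ hN₂
  refine ⟨N₃, hN₃, fun g n hn => ?_⟩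
  have h3 := hle₃ hn
  simp only
  rw [hχN g n h3.1, hψN g n h3.2]

/-- Skew-symmetry of the cup product, as an identity of `2`-cochains:
`(χ ∪ ψ) + (ψ ∪ χ) = d (-(χ · ψ))`, with `χ · ψ` a level `1`-cochain. -/
theorem isLvlCoboundary₂_cup_add_swap {χ ψ : G → ZMod p} (hχ : IsLvlHom 𝒰 χ)
    (hψ : IsLvlHom 𝒰 ψ) :
    IsLvlCoboundary₂ 𝒰 (fun x => χ x.1 * ψ x.2 + ψ x.1 * χ x.2) := by
  obtain ⟨N, hN, hxN⟩ := isLvl₁_mul 𝒰 hχ hψ
  refine ⟨fun g => -(χ g * ψ g), ⟨N, hN, fun g n hn => ?_⟩, fun g h => ?_⟩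
  · have := hxN g n hn
    simp only at this ⊢
    rw [this]
  · have h2 := cup_add_cup_swap hχ.1 hψ.1 g h
    simp only
    linear_combination -h2

theorem isLvlCoboundary₂_cup_swap {χ ψ : G → ZMod p} (hχ : IsLvlHom 𝒰 χ) (hψ : IsLvlHom 𝒰 ψ)
    (h : IsLvlCoboundary₂ 𝒰 (fun x => χ x.1 * ψ x.2)) :
    IsLvlCoboundary₂ 𝒰 (fun x => ψ x.1 * χ x.2) := by
  obtain ⟨x, ⟨N, hN, hxN⟩, hx⟩ := h
  obtain ⟨N₁, hN₁, hmN⟩ := isLvl₁_mul 𝒰 hχ hψ
  obtain ⟨N₃, hN₃, hle₃⟩ := 𝒰.directed N hN N₁ hN₁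
  refine ⟨fun g => -(χ g * ψ g) - x g, ⟨N₃, hN₃, fun g n hn => ?_⟩, fun g h => ?_⟩
  · have h3 := hle₃ hn
    have h1 := hmN g n h3.2
    simp only at h1 ⊢
    rw [hxN g n h3.1, h1]
  · have h1 := hx g h
    have h2 := cup_add_cup_swap hχ.1 hψ.1 g h
    simp only at h1 ⊢
    linear_combination -h2 - h1

/-- **Skew-symmetry of the cup product of level homomorphisms** (up to coboundaries). -/
theorem isLvlCoboundary₂_cup_comm {χ ψ : G → ZMod p} (hχ : IsLvlHom 𝒰 χ) (hψ : IsLvlHom 𝒰 ψ) :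
    IsLvlCoboundary₂ 𝒰 (fun x => χ x.1 * ψ x.2) ↔
      IsLvlCoboundary₂ 𝒰 (fun x => ψ x.1 * χ x.2) :=
  ⟨isLvlCoboundary₂_cup_swap 𝒰 hχ hψ, isLvlCoboundary₂_cup_swap 𝒰 hψ hχ⟩

end skew

section general

theorem pow_eq_of_natCast_eq {M : Type*} [Monoid M] {ζ : M} {p : ℕ} (hζ : ζ ^ p = 1) {m n : ℕ}
    (h : (m : ZMod p) = (n : ZMod p)) : ζ ^ m = ζ ^ n := by
  rw [pow_eq_pow_mod m hζ, pow_eq_pow_mod n hζ, (ZMod.natCast_eq_natCast_iff' m n p).1 h]

variable (E : IntermediateField ℚ Qb)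

theorem resEF_apply_coe (F : IntermediateField E Qb) [Normal E F] (g : E.fixingSubgroup)
    (x : F) : ((resEF E F g x : F) : Qb) = (g : Qb ≃ₐ[ℚ] Qb) (x : Qb) := by
  unfold resEF
  rw [MonoidHom.comp_apply]
  exact AlgEquiv.restrictNormalHom_apply F _ x

theorem actU_map_incl (F : IntermediateField E Qb) [Normal E F] (g : E.fixingSubgroup)
    (u : Fˣ) :
    actU (g : Qb ≃ₐ[ℚ] Qb) (Units.map (algebraMap F Qb : F →* Qb) u) =
      Units.map (algebraMap F Qb : F →* Qb) ((resEF E F g • u : Fˣ)) := by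
  apply Units.ext
  exact (resEF_apply_coe E F g (u : F)).symm

theorem mulD₁E_div (x y : E.fixingSubgroup → Qbˣ)
    (gh : E.fixingSubgroup × E.fixingSubgroup) :
    mulD₁E E (fun g => x g / y g) gh = mulD₁E E x gh / mulD₁E E y gh := by
  simp only [mulD₁E, map_div]
  rw [div_mul_div_comm, div_div_div_comm]

/-- Inflation of a finite-level coboundary is the coboundary of the inflated cochain. -/
theorem mulD₁E_infl (F : IntermediateField E Qb) [Normal E F]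
    (x : (F ≃ₐ[E] F) → Fˣ) (c : (F ≃ₐ[E] F) × (F ≃ₐ[E] F) → Fˣ)
    (hx : ∀ σ τ : F ≃ₐ[E] F, (σ • x τ : Fˣ) / x (σ * τ) * x σ = c (σ, τ))
    (gh : E.fixingSubgroup × E.fixingSubgroup) :
    mulD₁E E (fun g => Units.map (algebraMap F Qb : F →* Qb) (x (resEF E F g))) gh =
      inflE E F c gh := by
  obtain ⟨g, t⟩ := gh
  simp only [mulD₁E, inflE]
  rw [actU_map_incl, ← hx, map_mul, map_mul, map_div]
  rw [div_mul_eq_mul_div]

/-- the coboundary of `g ↦ ζ ^ (e g)` -/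
theorem mulD₁E_zetaPow {p : ℕ} [Fact p.Prime] (ζ : Qbˣ) (hζp : ζ ^ p = 1)
    (hζE : (ζ : Qb) ∈ E) (e : E.fixingSubgroup → ZMod p)
    (c : E.fixingSubgroup × E.fixingSubgroup → ZMod p)
    (he : ∀ g h, e h - e (g * h) + e g = c (g, h))
    (gh : E.fixingSubgroup × E.fixingSubgroup) :
    mulD₁E E (zetaPow ζ e) gh = zetaPow ζ c gh := by
  obtain ⟨g, t⟩ := gh
  have hfix : actU (g : Qb ≃ₐ[ℚ] Qb) ζ = ζ := by
    apply Units.ext
    rw [coe_actU]
    exact g.2 ⟨(ζ : Qb), hζE⟩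
  simp only [mulD₁E, zetaPow]
  rw [map_pow, hfix, div_eq_iff_eq_mul, ← pow_add, ← pow_add]
  apply pow_eq_of_natCast_eq hζp
  have := he g t
  simp only [Nat.cast_add, ZMod.natCast_val, ZMod.cast_id', id_eq]
  rw [← this]
  ring

/-- the coboundary of `g ↦ β ^ (χ g)` for a Kummer generator `β` of `ψ` -/
theorem mulD₁E_kummer_pow {p : ℕ} [Fact p.Prime] (ζ : Qbˣ) (hζp : ζ ^ p = 1)
    (χ ψ : E.fixingSubgroup → ZMod p) (hχ : ∀ g h, χ (g * h) = χ g + χ h) (β : Qbˣ)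
    (hβ : IsKummerGenE E ζ ψ β) (gh : E.fixingSubgroup × E.fixingSubgroup) :
    mulD₁E E (fun g => β ^ (χ g).val) gh =
      zetaPow ζ (fun x : E.fixingSubgroup × E.fixingSubgroup => ψ x.1 * χ x.2) gh *
        (β ^ p) ^ (((χ gh.1).val + (χ gh.2).val) / p) := by
  obtain ⟨g, t⟩ := gh
  have hp : p.Prime := Fact.out
  haveI : NeZero p := ⟨hp.ne_zero⟩
  simp only [mulD₁E, zetaPow]
  rw [map_pow, hβ g, mul_pow, ← pow_mul, hχ g t, ZMod.val_add]
  have h1 : ζ ^ ((ψ g).val * (χ t).val) = ζ ^ (ψ g * χ t).val := by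
    apply pow_eq_of_natCast_eq hζp
    simp only [Nat.cast_mul, ZMod.natCast_val, ZMod.cast_id', id_eq]
  rw [h1, div_eq_iff_eq_mul, ← pow_mul, mul_assoc, mul_assoc, ← pow_add, ← pow_add]
  congr 2
  rw [Nat.div_add_mod]
  exact add_comm _ _

end general

section main

/-- `E(α)`, as an intermediate field of `ℚ̄ / E`. -/
noncomputable abbrev Lα (E : IntermediateField ℚ Qb) (α : Qb) : IntermediateField E Qb :=
  IntermediateField.adjoin E {α}

/-- **[LOC-8]** the cup product of two Kummer characters versus norms, from `μ_p`-descent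
(`MuDescentStatement`) and injectivity of inflation (`Inf2LvlStatement`). -/
theorem cupNorm (hmu : MuDescentStatement) (hinf : Inf2LvlStatement) : CupNormStatement := by
  intro p _ E ζ hζ hζE χ ψ α β hχ hψ hα hβ hχ0
  have hp : p.Prime := Fact.out
  haveI : NeZero p := ⟨hp.ne_zero⟩
  obtain ⟨-, -, hk3⟩ := Fermat.Agent.H47.Cft.kummerE p E ζ hζ hζE
  obtain ⟨hαp, hαE⟩ := hk3 χ α hα
  obtain ⟨hβp, -⟩ := hk3 ψ β hβ
  have hαnot : (α : Qb) ∉ E := fun h => hχ0 (hαE.2 h)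
  have hζ' : IsPrimitiveRoot (⟨(ζ : Qb), hζE⟩ : E) p :=
    IsPrimitiveRoot.of_map_of_injective (f := algebraMap E Qb) hζ (algebraMap E Qb).injective
  have hζp : ζ ^ p = 1 := Units.ext (by simpa using hζ.pow_eq_one)
  have haα : (α : Qb) ^ p = algebraMap E Qb (⟨(α : Qb) ^ p, hαp⟩ : E) := rfl
  have hnot : ∀ b : E, algebraMap E Qb b ≠ (α : Qb) := fun b hb => hαnot (hb ▸ b.2)
  obtain ⟨hfd, hgal, g₀, hgen, hord, hdlog⟩ := KC.exists_gen hp hζ' haα hnot
  haveI : FiniteDimensional E (Lα E (α : Qb)) := hfd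
  haveI : IsGalois E (Lα E (α : Qb)) := hgal
  -- the element `b = β ^ p` of `Eˣ`
  have hb0 : (⟨(β : Qb) ^ p, hβp⟩ : E) ≠ 0 := by
    intro h
    have h1 := congrArg (algebraMap E Qb) h
    rw [map_zero] at h1
    exact pow_ne_zero p β.ne_zero h1
  obtain ⟨b', hb'⟩ : ∃ b' : Eˣ, (b' : E) = ⟨(β : Qb) ^ p, hβp⟩ := ⟨Units.mk0 _ hb0, rfl⟩
  have hbB : Units.map (algebraMap (Lα E (α : Qb)) Qb : (Lα E (α : Qb)) →* Qb)
      (unitsIncl E (Lα E (α : Qb)) b') = β ^ p := by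
    apply Units.ext
    rw [Units.coe_map, unitsIncl_coe, Units.val_pow_eq_pow_val]
    show algebraMap E Qb (b' : E) = _
    rw [hb']
    rfl
  have hdl : ∀ g : E.fixingSubgroup, dlog g₀ (resEF E (Lα E (α : Qb)) g) = (χ g).val := by
    intro g
    apply hdlog _ _ (ZMod.val_lt _)
    rw [resEF_apply_coe, AdjoinSimple.coe_gen]
    have := congrArg Units.val (hα g)
    simpa using this
  have hinfl : ∀ gh : E.fixingSubgroup × E.fixingSubgroup,
      inflE E (Lα E (α : Qb)) (stdCocycle g₀ (unitsIncl E (Lα E (α : Qb)) b')) gh =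
        (β ^ p) ^ (((χ gh.1).val + (χ gh.2).val) / p) := by
    rintro ⟨g, t⟩
    simp only [inflE, stdCocycle_apply]
    rw [map_pow, hbB, hdl, hdl, hord]
  have hkey : ∀ gh : E.fixingSubgroup × E.fixingSubgroup,
      mulD₁E E (fun g => β ^ (χ g).val) gh =
        zetaPow ζ (fun x : E.fixingSubgroup × E.fixingSubgroup => ψ x.1 * χ x.2) gh *
          inflE E (Lα E (α : Qb)) (stdCocycle g₀ (unitsIncl E (Lα E (α : Qb)) b')) gh := by
    intro gh
    rw [hinfl, mulD₁E_kummer_pow E ζ hζp χ ψ hχ.1 β hβ gh]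
  obtain ⟨N, hN, hχN⟩ := hχ.2
  have hresN : ∀ n ∈ N, resEF E (Lα E (α : Qb)) n = 1 := by
    intro n hn
    have h0 : χ n = 0 := Fermat.Agent.H47.Cft.lvlHom_zero_of_mem hχ.1 hχN n hn
    have h1 := hgen.pow_dlog (resEF E (Lα E (α : Qb)) n)
    rw [hdl, h0, ZMod.val_zero, pow_zero] at h1
    exact h1.symm
  constructor
  · -- (⇒)
    rintro ⟨e, ⟨N', hN', heN⟩, hde⟩
    have hZ := mulD₁E_zetaPow E ζ hζp hζE e
      (fun x : E.fixingSubgroup × E.fixingSubgroup => ψ x.1 * χ x.2) hde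
    have hcob : IsLvlMulCoboundary₂E E
        (inflE E (Lα E (α : Qb)) (stdCocycle g₀ (unitsIncl E (Lα E (α : Qb)) b'))) := by
      obtain ⟨N'', hN'', hle⟩ := (lvlE E).directed N hN N' hN'
      refine ⟨fun g => β ^ (χ g).val / zetaPow ζ e g, ⟨N'', hN'', ?_⟩, ?_⟩
      · intro g n hn
        have h1 := hle hn
        simp only [zetaPow]
        rw [hχN g n h1.1, heN g n h1.2]
      · intro gh
        rw [mulD₁E_div, hkey, hZ, mul_div_cancel_left]
    have h2 := hinf E (Lα E (α : Qb)) _ (isMulCocycle₂_stdCocycle_unitsIncl hgen b') hcob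
    obtain ⟨y, hy⟩ := (isMulCoboundary₂_stdCocycle_unitsIncl_iff hgen b').1 h2
    refine ⟨(y : Lα E (α : Qb)), ?_⟩
    have h3 := congrArg (fun u : Eˣ => algebraMap E Qb (u : E)) hy
    simp only [Units.coe_map, MonoidHom.coe_coe] at h3
    rw [h3, hb']
    rfl
  · -- (⇐)
    rintro ⟨y, hy⟩
    have hy0 : y ≠ 0 := by
      rintro rfl
      rw [Algebra.norm_zero, map_zero] at hy
      exact pow_ne_zero p β.ne_zero hy.symm
    have hmem : b' ∈ normSubgp E (Lα E (α : Qb)) := by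
      refine ⟨Units.mk0 y hy0, Units.ext ?_⟩
      rw [Units.coe_map, hb']
      apply Subtype.ext
      exact hy
    obtain ⟨x, hx⟩ := (isMulCoboundary₂_stdCocycle_unitsIncl_iff hgen b').2 hmem
    apply hmu p E ζ hζ hζE
    refine ⟨fun g => β ^ (χ g).val /
      Units.map (algebraMap (Lα E (α : Qb)) Qb : (Lα E (α : Qb)) →* Qb)
        (x (resEF E (Lα E (α : Qb)) g)), ⟨N, hN, ?_⟩, ?_⟩
    · intro g n hn
      simp only
      rw [hχN g n hn, map_mul, hresN n hn, mul_one]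
    · intro gh
      rw [mulD₁E_div, hkey, mulD₁E_infl E (Lα E (α : Qb)) x _ hx, mul_div_cancel_right]

end main

end Fermat.Agent.H98.Cft.CupNorm
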