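/-
P-CFT row 799 (helper98): **[DZ]** `DualZeroStatement` (both clauses), and the TRUE part of
**[L-DZ]**: over a field, if `Hⁿ⁺¹(g) = 0` then the transposed map kills the classes of the
dual complex in the complementary degree.

WARNING: clause 2 of `LDualZeroStatement` (`H²(g) = 0 → H⁰(dualCx2Map g) = 0`) is FALSE as
stated, because `H⁰(dualCx2 K) = Dual (K² / B²)` and not `Dual (H² K)`; see
`lDualZero_two_of_d_eq_zero` for the version with `K.d 2 3 = 0` (which is true).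
-/
import Fermat.Agent.H13.Cft.StepD
import Fermat.Agent.H19.Cft.HomologyApi

set_option autoImplicit false
set_option linter.style.haveILetI false
set_option linter.unusedSectionVars false

universe u

open CategoryTheory

namespace Fermat.Agent.H98.Cft.DZ

open Fermat.Agent.H13.Cft Fermat.Agent.H19 Fermat.Agent.H53 Fermat.Agent.H47.Cft

section linear

variable {k : Type u} [Field k] {V W : Type u} [AddCommGroup V] [Module k V] [AddCommGroup W]
  [Module k W]

/-- Over a field, a linear form vanishing on `ker T` factors through `T`. -/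
theorem exists_factor (T : V →ₗ[k] W) (φ : Module.Dual k V) (h : ∀ v, T v = 0 → φ v = 0) :
    ∃ ψ : Module.Dual k W, ψ ∘ₗ T = φ := by
  have hmem : φ ∈ LinearMap.range T.dualMap := by
    rw [LinearMap.range_dualMap_eq_dualAnnihilator_ker, Submodule.mem_dualAnnihilator]
    intro v hv
    exact h v (LinearMap.mem_ker.1 hv)
  obtain ⟨ψ, hψ⟩ := hmem
  exact ⟨ψ, hψ⟩

end linear

section complexes

variable {k : Type u} [Field k] {K K' : CochainComplex (ModuleCat.{u} k) ℕ} (g : K ⟶ K')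

theorem map_d_apply (n : ℕ) (x : K.X n) :
    (K'.d n (n + 1)).hom ((g.f n).hom x) = (g.f (n + 1)).hom ((K.d n (n + 1)).hom x) :=
  LinearMap.congr_fun (congrArg ModuleCat.Hom.hom (g.comm n (n + 1))) x

theorem d_map_eq_zero (n : ℕ) (x : K.X n) (hx : (K.d n (n + 1)).hom x = 0) :
    (K'.d n (n + 1)).hom ((g.f n).hom x) = 0 := by
  rw [map_d_apply, hx, map_zero]

/-- If `Hⁿ⁺¹(g) = 0`, then `g` maps `(n+1)`-cocycles to coboundaries. -/
theorem exists_bound_of_homologyMap_eq_zero (n : ℕ)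
    (h : HomologicalComplex.homologyMap g (n + 1) = 0) (x : K.X (n + 1))
    (hx : (K.d (n + 1) (n + 2)).hom x = 0) :
    ∃ y : K'.X n, (K'.d n (n + 1)).hom y = (g.f (n + 1)).hom x := by
  have h1 := hapi_homologyMap_hMk K (n + 1) K' g x hx (d_map_eq_zero g (n + 1) x hx)
  rw [h] at h1
  have h2 : hMk K' (n + 1) ((g.f (n + 1)).hom x) (d_map_eq_zero g (n + 1) x hx) = 0 := by
    rw [← h1]
    rfl
  exact (hapi_hMk_succ_eq_zero_iff K' n _ _).1 h2

/-- **Key lemma.** If `Hⁿ⁺¹(g) = 0`, every linear form `ξ` on `K'ⁿ⁺¹` vanishing on the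
coboundaries satisfies `ξ ∘ g = η ∘ d` for some linear form `η` on `Kⁿ⁺²`. -/
theorem exists_dual_bound (n : ℕ) (h : HomologicalComplex.homologyMap g (n + 1) = 0)
    (ξ : Module.Dual k (K'.X (n + 1))) (hξ : ξ ∘ₗ (K'.d n (n + 1)).hom = 0) :
    ∃ η : Module.Dual k (K.X (n + 2)),
      η ∘ₗ (K.d (n + 1) (n + 2)).hom = ξ ∘ₗ (g.f (n + 1)).hom := by
  apply exists_factor
  intro v hv
  obtain ⟨y, hy⟩ := exists_bound_of_homologyMap_eq_zero g n h v hv
  rw [LinearMap.comp_apply, ← hy]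
  exact LinearMap.congr_fun hξ y

lemma dualCx_d (K : CochainComplex (ModuleCat.{u} k) ℕ) (n : ℕ) :
    (dualCx K).d n (n + 1) = dualD K n :=
  CochainComplex.of_d _ _ n

lemma dualCx2_d' (K : CochainComplex (ModuleCat.{u} k) ℕ) (n : ℕ) :
    (dualCx2 K).d n (n + 1) = dualD2 K n :=
  CochainComplex.of_d _ _ n

/-- `H¹(g) = 0 → H²(dualCxMap g) = 0`. -/
theorem dualZero_one (h : HomologicalComplex.homologyMap g 1 = 0) :
    HomologicalComplex.homologyMap (dualCxMap g) 2 = 0 := by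
  ext z
  obtain ⟨ξ, hξ, rfl⟩ := hapi_hMk_surjective (dualCx K') 2 z
  rw [hapi_homologyMap_hMk (dualCx K') 2 (dualCx K) (dualCxMap g) ξ hξ
    (d_map_eq_zero (dualCxMap g) 2 ξ hξ)]
  have hξ' : (show Module.Dual k (K'.X 1) from ξ) ∘ₗ (K'.d 0 1).hom = 0 := by
    rw [dualCx_d] at hξ
    exact hξ
  obtain ⟨η, hη⟩ := exists_dual_bound g 0 h (show Module.Dual k (K'.X 1) from ξ) hξ'
  refine ((hapi_hMk_succ_eq_zero_iff (dualCx K) 1 _ _).2 ⟨η, ?_⟩).trans rfl
  rw [dualCx_d]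
  exact hη

/-- `H²(g) = 0 → H¹(dualCxMap g) = 0`. -/
theorem dualZero_two (h : HomologicalComplex.homologyMap g 2 = 0) :
    HomologicalComplex.homologyMap (dualCxMap g) 1 = 0 := by
  ext z
  obtain ⟨ξ, hξ, rfl⟩ := hapi_hMk_surjective (dualCx K') 1 z
  rw [hapi_homologyMap_hMk (dualCx K') 1 (dualCx K) (dualCxMap g) ξ hξ
    (d_map_eq_zero (dualCxMap g) 1 ξ hξ)]
  have hξ' : (show Module.Dual k (K'.X 2) from ξ) ∘ₗ (K'.d 1 2).hom = 0 := by
    rw [dualCx_d] at hξ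
    exact hξ
  obtain ⟨η, hη⟩ := exists_dual_bound g 1 h (show Module.Dual k (K'.X 2) from ξ) hξ'
  refine ((hapi_hMk_succ_eq_zero_iff (dualCx K) 0 _ _).2 ⟨η, ?_⟩).trans rfl
  rw [dualCx_d]
  exact hη

/-- **[L-DZ], clause 1.** `H¹(g) = 0 → H¹(dualCx2Map g) = 0`. -/
theorem lDualZero_one (h : HomologicalComplex.homologyMap g 1 = 0) :
    HomologicalComplex.homologyMap (dualCx2Map g) 1 = 0 := by
  ext z
  obtain ⟨ξ, hξ, rfl⟩ := hapi_hMk_surjective (dualCx2 K') 1 z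
  rw [hapi_homologyMap_hMk (dualCx2 K') 1 (dualCx2 K) (dualCx2Map g) ξ hξ
    (d_map_eq_zero (dualCx2Map g) 1 ξ hξ)]
  have hξ' : (show Module.Dual k (K'.X 1) from ξ) ∘ₗ (K'.d 0 1).hom = 0 := by
    rw [dualCx2_d'] at hξ
    exact hξ
  obtain ⟨η, hη⟩ := exists_dual_bound g 0 h (show Module.Dual k (K'.X 1) from ξ) hξ'
  refine ((hapi_hMk_succ_eq_zero_iff (dualCx2 K) 0 _ _).2 ⟨η, ?_⟩).trans rfl
  rw [dualCx2_d']
  exact hη

/-- **[L-DZ], clause 2, CORRECTED**: `H²(g) = 0 → H⁰(dualCx2Map g) = 0` holds if every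
`2`-cochain of `K` is a cocycle (e.g. for a complex truncated in degree `2`). -/
theorem lDualZero_two_of_d_eq_zero (hd : ∀ x : K.X 2, (K.d 2 3).hom x = 0)
    (h : HomologicalComplex.homologyMap g 2 = 0) :
    HomologicalComplex.homologyMap (dualCx2Map g) 0 = 0 := by
  ext z
  obtain ⟨ξ, hξ, rfl⟩ := hapi_hMk_surjective (dualCx2 K') 0 z
  rw [hapi_homologyMap_hMk (dualCx2 K') 0 (dualCx2 K) (dualCx2Map g) ξ hξ
    (d_map_eq_zero (dualCx2Map g) 0 ξ hξ)]
  have hξ' : (show Module.Dual k (K'.X 2) from ξ) ∘ₗ (K'.d 1 2).hom = 0 := by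
    rw [dualCx2_d'] at hξ
    exact hξ
  refine ((hapi_hMk_zero_eq_zero_iff (dualCx2 K) _ _).2 ?_).trans rfl
  refine LinearMap.ext fun v => ?_
  obtain ⟨y, hy⟩ := exists_bound_of_homologyMap_eq_zero g 1 h v (hd v)
  show (show Module.Dual k (K'.X 2) from ξ) ((g.f 2).hom v) = 0
  rw [← hy]
  exact LinearMap.congr_fun hξ' y

end complexes

/-- **[DZ]** -/
theorem dualZero : DualZeroStatement.{u} :=
  fun g => ⟨dualZero_one g, dualZero_two g⟩

end Fermat.Agent.H98.Cft.DZ
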